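/-
Program B' (S34), leaf (F-DEG), generic half (helper13): DESCENT OF THE DEGREE along a constant
field extension, by coefficient functionals.  Mathlib only.

Setting: `Kb` a field (`ℚ̄`), `F ⊆ F'` fields over `Kb` (function fields `F_M ⊆ F_{Mq}`, the
algebra structure `F → F'` being `α`), `K₀ ⊆ Kb` a subfield, `E₀ ⊆ F`, `F₀ ⊆ F'` subfields with
`E₀ → F₀` (the `K₀`-forms), such that `F = E₀ · Kb`, `F' = F₀ · Kb`, and there is a jointly
injective family of `Kb`-linear functionals `c n : F' → Kb` (the `q`-expansion coefficients) which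
take values in `K₀` on `F₀`.  Then

* `linearIndependent_of_coeff` : an `E₀`-linearly independent family of `F₀` is `F`-linearly
  independent in `F'` (`F₀` and `F` are linearly disjoint over `E₀`);
* `span_eq_top_of_span` : an `E₀`-spanning family of `F₀` spans `F'` over `F`;
* `finrank_eq_of_coeff` : `[F₀ : E₀] = [F' : F]`.
-/
import Mathlib

set_option autoImplicit false

noncomputable section

namespace Fermat.Agent.S34.H13

open Module

variable {Kb F F' : Type*} [Field Kb] [Field F] [Field F'] [Algebra Kb F] [Algebra Kb F']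
  [Algebra F F'] [IsScalarTower Kb F F']

/-- The constants lie in the `E₀`-span of the image of a `K₀`-basis of `Kb`. -/
theorem algebraMap_mem_span_basis (K₀ : Subfield Kb) (E₀ : Subfield F)
    (hK₀ : ∀ a ∈ K₀, algebraMap Kb F a ∈ E₀) {T : Type*} (b : Basis T K₀ Kb) (μ : Kb) :
    algebraMap Kb F μ ∈ Submodule.span E₀ (Set.range fun t => algebraMap Kb F (b t)) := by
  have h := b.linearCombination_repr μ
  rw [← h, Finsupp.linearCombination_apply, Finsupp.sum, map_sum]
  refine Submodule.sum_mem _ fun t _ => ?_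
  have h1 : algebraMap Kb F ((b.repr μ t) • b t) =
      (⟨algebraMap Kb F ((b.repr μ t : K₀) : Kb), hK₀ _ (b.repr μ t).2⟩ : E₀) •
        algebraMap Kb F (b t) := by
    rw [Subfield.smul_def, Subfield.smul_def, smul_eq_mul, smul_eq_mul, map_mul]
  rw [h1]
  exact Submodule.smul_mem _ _ (Submodule.subset_span ⟨t, rfl⟩)

/-- The `Kb`-algebra generated by `E₀` lies in the `E₀`-span of the image of a `K₀`-basis of
`Kb`. -/
theorem adjoin_le_span_basis (K₀ : Subfield Kb) (E₀ : Subfield F)
    (hK₀ : ∀ a ∈ K₀, algebraMap Kb F a ∈ E₀) {T : Type*} (b : Basis T K₀ Kb) (x : F)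
    (hx : x ∈ Algebra.adjoin Kb (E₀ : Set F)) :
    x ∈ Submodule.span E₀ (Set.range fun t => algebraMap Kb F (b t)) := by
  have hx' : x ∈ Submodule.span Kb (E₀ : Set F) := by
    have h1 : x ∈ Subalgebra.toSubmodule (Algebra.adjoin Kb (E₀ : Set F)) := hx
    rw [Algebra.adjoin_eq_span] at h1
    have h2 : Submonoid.closure (E₀ : Set F) = E₀.toSubring.toSubmonoid :=
      Submonoid.closure_eq E₀.toSubring.toSubmonoid
    rw [h2] at h1
    exact h1
  obtain ⟨l, rfl⟩ := (Finsupp.mem_span_iff_linearCombination Kb (E₀ : Set F) x).1 hx'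
  rw [Finsupp.linearCombination_apply, Finsupp.sum]
  refine Submodule.sum_mem _ fun e _ => ?_
  have h3 : l e • (e : F) = (⟨(e : F), e.2⟩ : E₀) • algebraMap Kb F (l e) := by
    rw [Algebra.smul_def, Subfield.smul_def, smul_eq_mul, mul_comm]
  rw [h3]
  exact Submodule.smul_mem _ _ (algebraMap_mem_span_basis K₀ E₀ hK₀ b (l e))

/-- **Linear disjointness by coefficients.**  An `E₀`-linearly independent family of `F₀` is
`F`-linearly independent in `F'`. -/
theorem linearIndependent_of_coeff (K₀ : Subfield Kb) (E₀ : Subfield F) (F₀ : Subfield F')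
    [Algebra E₀ F₀]
    (halg : ∀ e : E₀, ((algebraMap E₀ F₀ e : F₀) : F') = algebraMap F F' (e : F))
    (hK₀ : ∀ a ∈ K₀, algebraMap Kb F a ∈ E₀)
    (hE : Subfield.closure ((E₀ : Set F) ∪ Set.range (algebraMap Kb F)) = ⊤)
    {ι : Type*} (c : ι → F' →ₗ[Kb] Kb) (hc : ∀ x : F', (∀ n, c n x = 0) → x = 0)
    (hcF₀ : ∀ n, ∀ x ∈ F₀, c n x ∈ K₀)
    {J : Type*} (v : J → F₀) (hv : LinearIndependent E₀ v) :
    LinearIndependent F (fun j => ((v j : F₀) : F')) := by
  classical
  set R : Subalgebra Kb F := Algebra.adjoin Kb (E₀ : Set F) with hR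
  have hle : Subring.closure ((E₀ : Set F) ∪ Set.range (algebraMap Kb F)) ≤ R.toSubring := by
    rw [Subring.closure_le]
    rintro x (hx | ⟨a, rfl⟩)
    · exact Algebra.subset_adjoin hx
    · exact R.algebraMap_mem a
  have : IsFractionRing R F := IsFractionRing.of_field R F fun z => by
    have hz : z ∈ Subfield.closure ((E₀ : Set F) ∪ Set.range (algebraMap Kb F)) := by
      rw [hE]; trivial
    obtain ⟨y, hy, w, hw, rfl⟩ := Subfield.mem_closure_iff.1 hz
    exact ⟨⟨y, hle hy⟩, ⟨w, hle hw⟩, rfl⟩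
  rw [← LinearIndependent.iff_fractionRing R F]
  rw [linearIndependent_iff']
  intro s g hg j hj
  -- a `K₀`-basis of `Kb`
  let b := Basis.ofVectorSpace K₀ Kb
  have hmem : ∀ i : J, ((g i : R) : F) ∈
      Submodule.span E₀ (Set.range fun t => algebraMap Kb F (b t)) := fun i =>
    adjoin_le_span_basis K₀ E₀ hK₀ b _ (g i).2
  choose e he using fun i => Finsupp.mem_span_range_iff_exists_finsupp.1 (hmem i)
  -- a common finite support
  set U := s.biUnion fun i => (e i).support with hU
  have hgU : ∀ i ∈ s, ((g i : R) : F) = ∑ t ∈ U, (e i t) • algebraMap Kb F (b t) := by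
    intro i hi
    rw [← he i]
    exact Finsupp.sum_of_support_subset _ (Finset.subset_biUnion_of_mem
      (fun i => (e i).support) hi) _ (fun t _ => zero_smul _ _)
  -- the coefficient sums in `F₀`
  let h : _ → F₀ := fun t => ∑ i ∈ s, (e i t) • v i
  have hsm : ∀ (a : E₀) (y : F₀), (((a • y : F₀)) : F') = algebraMap F F' (a : F) * (y : F') := by
    intro a y
    rw [Algebra.smul_def, Subfield.coe_mul, halg]
  have hcoe : ∀ t, ((h t : F₀) : F') = ∑ i ∈ s, algebraMap F F' ((e i t : E₀) : F) * (v i : F') := by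
    intro t
    show ((∑ i ∈ s, (e i t) • v i : F₀) : F') = _
    rw [← Subfield.subtype_apply, map_sum]
    exact Finset.sum_congr rfl fun i _ => hsm _ _
  have hsum : ∑ t ∈ U, algebraMap Kb F' (b t) * ((h t : F₀) : F') = 0 := by
    have h1 : ∀ i ∈ s, (g i) • ((v i : F₀) : F') =
        ∑ t ∈ U, algebraMap Kb F' (b t) * (algebraMap F F' ((e i t : E₀) : F) * (v i : F')) := by
      intro i hi
      have h2 : (g i) • ((v i : F₀) : F') = algebraMap F F' ((g i : R) : F) * (v i : F') := by
        rw [Subalgebra.smul_def, Algebra.smul_def]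
      rw [h2, hgU i hi, map_sum, Finset.sum_mul]
      refine Finset.sum_congr rfl fun t _ => ?_
      rw [Subfield.smul_def, smul_eq_mul, map_mul, ← IsScalarTower.algebraMap_apply Kb F F']
      ring
    calc ∑ t ∈ U, algebraMap Kb F' (b t) * ((h t : F₀) : F')
        = ∑ t ∈ U, ∑ i ∈ s, algebraMap Kb F' (b t) *
            (algebraMap F F' ((e i t : E₀) : F) * (v i : F')) := by
          refine Finset.sum_congr rfl fun t _ => ?_
          rw [hcoe t, Finset.mul_sum]
      _ = ∑ i ∈ s, ∑ t ∈ U, algebraMap Kb F' (b t) *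
            (algebraMap F F' ((e i t : E₀) : F) * (v i : F')) := Finset.sum_comm
      _ = ∑ i ∈ s, (g i) • ((v i : F₀) : F') := Finset.sum_congr rfl fun i hi => (h1 i hi).symm
      _ = 0 := hg
  -- every coefficient sum vanishes
  have hh : ∀ t ∈ U, h t = 0 := by
    intro t ht
    have h0 : ((h t : F₀) : F') = 0 := by
      refine hc _ fun n => ?_
      have h1 : ∑ u ∈ U, (⟨c n ((h u : F₀) : F'), hcF₀ n _ (h u).2⟩ : K₀) • b u = 0 := by
        have h2 := congrArg (c n) hsum
        rw [map_sum, map_zero] at h2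
        rw [← h2]
        refine Finset.sum_congr rfl fun u _ => ?_
        rw [← Algebra.smul_def, map_smul, Subfield.smul_def, smul_eq_mul, smul_eq_mul, mul_comm]
      have h3 := linearIndependent_iff'.1 b.linearIndependent U _ h1 t ht
      exact congrArg (fun k : K₀ => (k : Kb)) h3
    exact Subtype.ext h0
  -- conclude
  have hez : ∀ t, e j t = 0 := by
    intro t
    by_cases ht : t ∈ U
    · exact linearIndependent_iff'.1 hv s (fun i => e i t) (hh t ht) j hj
    · by_contra hne
      exact ht (Finset.mem_biUnion.2 ⟨j, hj, Finsupp.mem_support_iff.2 hne⟩)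
  have hej : e j = 0 := Finsupp.ext hez
  have hgj : ((g j : R) : F) = 0 := by
    rw [← he j, hej]
    exact Finsupp.sum_zero_index
  exact Subtype.ext hgj

/-- An `E₀`-spanning family of `F₀` spans `F' = F₀ · Kb` over `F`. -/
theorem span_eq_top_of_span (E₀ : Subfield F) (F₀ : Subfield F') [Algebra E₀ F₀]
    [Algebra.IsAlgebraic F F']
    (halg : ∀ e : E₀, ((algebraMap E₀ F₀ e : F₀) : F') = algebraMap F F' (e : F))
    (hF : Subfield.closure ((F₀ : Set F') ∪ Set.range (algebraMap Kb F')) = ⊤)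
    {J : Type*} (v : J → F₀) (hspan : ⊤ ≤ Submodule.span E₀ (Set.range v)) :
    ⊤ ≤ Submodule.span F (Set.range fun j => ((v j : F₀) : F')) := by
  set S := Submodule.span F (Set.range fun j => ((v j : F₀) : F')) with hS
  have hsm : ∀ (a : E₀) (y : F₀), (((a • y : F₀)) : F') = (a : F) • (y : F') := by
    intro a y
    rw [Algebra.smul_def, Subfield.coe_mul, halg, Algebra.smul_def]
  have hF₀ : ∀ x : F₀, (x : F') ∈ S := by
    intro x
    have hx : x ∈ Submodule.span E₀ (Set.range v) := hspan trivial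
    induction hx using Submodule.span_induction with
    | mem y hy =>
      obtain ⟨i, rfl⟩ := hy
      exact Submodule.subset_span ⟨i, rfl⟩
    | zero => rw [Subfield.coe_zero]; exact S.zero_mem
    | add y z _ _ hy hz => rw [Subfield.coe_add]; exact S.add_mem hy hz
    | smul a y _ hy => rw [hsm]; exact S.smul_mem _ hy
  have h1 : (1 : F') ∈ S := by
    have := hF₀ 1
    rwa [Subfield.coe_one] at this
  have hmul : ∀ x y : F', x ∈ S → y ∈ S → x * y ∈ S := by
    have hSS : S * S ≤ S := by
      rw [hS, Submodule.span_mul_span, Submodule.span_le]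
      rintro _ ⟨_, ⟨i, rfl⟩, _, ⟨k, rfl⟩, rfl⟩
      have := hF₀ (v i * v k)
      rwa [Subfield.coe_mul] at this
    exact fun x y hx hy => hSS (Submodule.mul_mem_mul hx hy)
  let A' : Subalgebra F F' := S.toSubalgebra h1 hmul
  have hinv : ∀ x ∈ A', x⁻¹ ∈ A' := fun x hx =>
    A'.inv_mem_of_algebraic (x := ⟨x, hx⟩) (Algebra.IsAlgebraic.isAlgebraic x)
  let L : IntermediateField F F' := A'.toIntermediateField hinv
  have hle : Subfield.closure ((F₀ : Set F') ∪ Set.range (algebraMap Kb F')) ≤ L.toSubfield := by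
    rw [Subfield.closure_le]
    rintro x (hx | ⟨a, rfl⟩)
    · exact hF₀ ⟨x, hx⟩
    · rw [IsScalarTower.algebraMap_apply Kb F F']
      exact L.algebraMap_mem _
  intro x _
  have hx : x ∈ L.toSubfield := hle (by rw [hF]; trivial)
  exact hx

/-- **Descent of the degree.**  `[F₀ : E₀] = [F' : F]`. -/
theorem finrank_eq_of_coeff [FiniteDimensional F F'] (K₀ : Subfield Kb) (E₀ : Subfield F)
    (F₀ : Subfield F') [Algebra E₀ F₀]
    (halg : ∀ e : E₀, ((algebraMap E₀ F₀ e : F₀) : F') = algebraMap F F' (e : F))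
    (hK₀ : ∀ a ∈ K₀, algebraMap Kb F a ∈ E₀)
    (hE : Subfield.closure ((E₀ : Set F) ∪ Set.range (algebraMap Kb F)) = ⊤)
    (hF : Subfield.closure ((F₀ : Set F') ∪ Set.range (algebraMap Kb F')) = ⊤)
    {ι : Type*} (c : ι → F' →ₗ[Kb] Kb) (hc : ∀ x : F', (∀ n, c n x = 0) → x = 0)
    (hcF₀ : ∀ n, ∀ x ∈ F₀, c n x ∈ K₀) :
    Module.finrank E₀ F₀ = Module.finrank F F' := by
  classical
  have hfin : Module.Finite E₀ F₀ := by
    rw [← Module.rank_lt_aleph0_iff]
    refine lt_of_le_of_lt (rank_le (n := finrank F F') fun s hs => ?_) (Cardinal.natCast_lt_aleph0)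
    have h1 := linearIndependent_of_coeff K₀ E₀ F₀ halg hK₀ hE c hc hcF₀
      (fun i : s => (i : F₀)) hs
    have h2 := h1.fintype_card_le_finrank
    rwa [Fintype.card_coe] at h2
  let v := Module.finBasis E₀ F₀
  have hli := linearIndependent_of_coeff K₀ E₀ F₀ halg hK₀ hE c hc hcF₀ v v.linearIndependent
  have hsp := span_eq_top_of_span (Kb := Kb) E₀ F₀ halg hF v v.span_eq.ge
  rw [Module.finrank_eq_card_basis (Basis.mk hli hsp), Fintype.card_fin]

end Fermat.Agent.S34.H13
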